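import Fermat.Agent.ExtVanish.InertiaLift
import Mathlib.NumberTheory.NumberField.Discriminant.Different

/-!
# A prime whose inertia fixes a Galois field does not divide its discriminant
-/

set_option autoImplicit false

noncomputable section

namespace FA.UchidaYamamura

open NumberField
open scoped Pointwise

local notation "Qb" => AlgebraicClosure ℚ

theorem not_dvd_discr_of_inertia_le (F : IntermediateField ℚ Qb) [NumberField F] [IsGalois ℚ F]
    {q : ℕ} (hq : q.Prime) (h : ∀ A : ValuationSubring Qb, A.LiesOverPrime q →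
      A.inertiaSubgroupIn ℚ ≤ F.fixingSubgroup) :
    ¬(q : ℤ) ∣ discr F := by
  rw [not_dvd_discr_iff_forall_mem F (𝓞 F) (Nat.prime_iff_prime_int.1 hq)]
  intro P hP hqP
  rw [Int.cast_natCast] at hqP
  have hP0 : P ≠ ⊥ := fun h0 => hq.ne_zero (by rw [h0, Ideal.mem_bot] at hqP; exact_mod_cast hqP)
  have : P.IsMaximal := hP.isMaximal hP0
  let pI : Ideal ℤ := Ideal.span {(q : ℤ)}
  have hpI : pI.IsMaximal := PrincipalIdealRing.isMaximal_of_irreducible
    (Nat.prime_iff_prime_int.mp hq).irreducible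
  have hover : P.LiesOver pI := by
    refine ⟨hpI.eq_of_le (Ideal.IsPrime.ne_top') ?_⟩
    rw [Ideal.span_le, Set.singleton_subset_iff, SetLike.mem_coe, Ideal.mem_comap]
    simpa using hqP
  have : Finite pI.ResidueField := by
    have : Finite (ℤ ⧸ pI) := by
      have : NeZero q := ⟨hq.ne_zero⟩
      exact Finite.of_equiv (ZMod q) (Int.quotientSpanNatEquivZMod q).symm.toEquiv
    exact Finite.of_surjective _ pI.bijective_algebraMap_quotient_residueField.2
  have hbot : P.inertia (F ≃ₐ[ℚ] F) = ⊥ := (Subgroup.eq_bot_iff_forall _).2 fun τ hτ => by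
    obtain ⟨A, hA, σ, hσ, hext⟩ := FA.Ext.exists_inertia_lift F P hq hqP τ hτ
    refine AlgEquiv.ext fun y => Subtype.ext ?_
    rw [← hext y]
    exact (IntermediateField.mem_fixingSubgroup_iff _ _).1 (h A hA hσ) y y.2
  have hcard := Ideal.card_inertia_eq_ramificationIdxIn (G := F ≃ₐ[ℚ] F) pI P
  rw [hbot, Subgroup.card_bot,
    Ideal.ramificationIdxIn_eq_ramificationIdx pI P (F ≃ₐ[ℚ] F), eq_comm,
    Ideal.ramificationIdx_eq_one_iff] at hcard
  exact hcard

end FA.UchidaYamamura

end
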