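import Fermat.Agent.UchidaYamamura.RealRoots
import Fermat.Agent.UchidaYamamura.Discriminant
import Fermat.Agent.PerronCriterion.Main
import Mathlib.NumberTheory.LSeries.PrimesInAP

/-!
# The parameters, and the fields

With `b` a large prime `≡ 1` modulo `M = n (n - 1) N` and `a` divisible by exactly the prime
divisors of `M` prime to `n`, the trinomial is admissible and `D` is prime to `N`; the size of `a`
makes complex conjugation odd. The fixed field of the even permutations is then imaginary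
quadratic of discriminant prime to `N`, and the splitting field is unramified over it.
-/

set_option autoImplicit false

noncomputable section

namespace FA.UchidaYamamura

open Polynomial NumberField Fermat.Agent Fermat.Agent.UnramifiedGalois
open scoped Polynomial

local notation "Qb" => AlgebraicClosure ℚ
local notation "GQ" => AlgebraicClosure ℚ ≃ₐ[ℚ] AlgebraicClosure ℚ

variable {n : ℕ} {a b : ℤ}

/-- Osada's criterion for the trinomial. -/
theorem irreducible_trinom (h3 : 3 ≤ n) {p : ℕ} (hp : p.Prime) (hb : b = (p : ℤ))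
    (hab : |a| + 1 < b) : Irreducible ((trinom n a b).map (Int.castRingHom ℚ)) := by
  have hmon : (trinom n a b).Monic := trinom_monic (by omega)
  have hcoeff : ∀ i : ℕ, (trinom n a b).coeff i =
      (if i = n then 1 else 0) + (if i = 1 then a else 0) + (if i = 0 then b else 0) := fun i => by
    simp only [trinom, coeff_add, coeff_C_mul, coeff_X_pow, coeff_X, coeff_C, mul_ite, mul_one,
      mul_zero]
    split_ifs <;> omega
  have h0 : (trinom n a b).coeff 0 = b := by
    rw [hcoeff, if_neg (by omega), if_neg (by omega), if_pos rfl]; ring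
  have hirr : Irreducible (trinom n a b) := by
    refine PerronCriterion.osada hmon (by rw [h0, hb, Int.natAbs_natCast]; exact hp) ?_
    rw [h0, natDegree_trinom (by omega)]
    calc ∑ k ∈ Finset.range n, |(trinom n a b).coeff (k + 1)|
        ≤ ∑ k ∈ Finset.range n, ((if k = n - 1 then 1 else 0) + (if k = 0 then |a| else 0)) := by
          refine Finset.sum_le_sum fun k _ => ?_
          rw [hcoeff]
          simp only [Nat.add_one_ne_zero, if_false, add_zero]
          split_ifs <;> first | omega | norm_num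
      _ ≤ 1 + |a| := by
          rw [Finset.sum_add_distrib, Finset.sum_ite_eq', Finset.sum_ite_eq',
            if_pos (Finset.mem_range.2 (by omega)), if_pos (Finset.mem_range.2 (by omega))]
      _ < |b| := lt_of_lt_of_le (by linarith) (le_abs_self b)
  exact (IsPrimitive.Int.irreducible_iff_irreducible_map_cast hmon.isPrimitive).1 hirr

/-- The congruence conditions suffice. -/
theorem admissible_of_congr (h3 : 3 ≤ n) {N p : ℕ} (hp : p.Prime) (hb : b = (p : ℤ))
    (hp1 : p ≡ 1 [MOD n * (n - 1) * N]) (ha0 : a ≠ 0) (hab : |a| < b)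
    (ha : ∀ s : ℕ, s.Prime → s ∣ n * (n - 1) * N → ((s : ℤ) ∣ a ↔ ¬s ∣ n)) :
    Admissible n a b ∧ ∀ s : ℕ, s.Prime → s ∣ N → ¬(s : ℤ) ∣ trinomDisc n a b := by
  have hsb : ∀ s : ℕ, s.Prime → s ∣ n * (n - 1) * N → ¬(s : ℤ) ∣ b := by
    intro s hs hsM h
    rw [hb, Int.natCast_dvd_natCast] at h
    have h1 : s ∣ 1 := (Nat.modEq_zero_iff_dvd).1
      (((hp1.of_dvd hsM).symm.trans (Nat.modEq_zero_iff_dvd.2 h)))
    exact hs.not_dvd_one h1
  refine ⟨⟨by omega, ?_, ?_, ?_⟩, fun s hs hsN hD => ?_⟩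
  · rw [Int.isCoprime_iff_nat_coprime, Nat.coprime_comm, hb, Int.natAbs_natCast,
      hp.coprime_iff_not_dvd]
    intro h
    have h1 := Nat.le_of_dvd (Int.natAbs_pos.2 ha0) h
    rw [hb, Int.abs_eq_natAbs] at hab
    omega
  · rw [Int.isCoprime_iff_nat_coprime, Int.natAbs_natCast]
    refine Nat.coprime_of_dvd fun s hs hsn hsa => ?_
    exact (ha s hs ((hsn.mul_right _).mul_right _)).1 (Int.natCast_dvd.2 hsa) hsn
  · rw [Int.isCoprime_iff_nat_coprime]
    refine Nat.coprime_of_dvd fun s hs hsn hsb' => ?_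
    refine hsb s hs ((Dvd.dvd.mul_left ?_ _).mul_right _) (Int.natCast_dvd.2 hsb')
    rwa [show ((n : ℤ) - 1).natAbs = n - 1 by omega] at hsn
  · have hsM : s ∣ n * (n - 1) * N := hsN.mul_left _
    have hsI : Prime (s : ℤ) := Nat.prime_iff_prime_int.1 hs
    by_cases hsn : s ∣ n
    · have h1 : (s : ℤ) ∣ (n : ℤ) ^ n * (-b) ^ (n - 1) :=
        ((Int.natCast_dvd_natCast.2 hsn).trans (dvd_pow_self _ (by omega))).mul_right _
      rcases hsI.dvd_or_dvd ((dvd_add_right h1).1 hD) with h | h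
      · have h4 : (s : ℤ) ∣ (n : ℤ) - ((n : ℤ) - 1) :=
          (Int.natCast_dvd_natCast.2 hsn).sub (hsI.dvd_of_dvd_pow h)
        rw [sub_sub_cancel] at h4
        exact hsI.not_dvd_one h4
      · exact (ha s hs hsM).1 (hsI.dvd_of_dvd_pow h) hsn
    · have h1 : (s : ℤ) ∣ ((n : ℤ) - 1) ^ (n - 1) * a ^ n :=
        (((ha s hs hsM).2 hsn).trans (dvd_pow_self _ (by omega))).mul_left _
      rcases hsI.dvd_or_dvd ((dvd_add_left h1).1 hD) with h | h
      · exact hsn (Int.natCast_dvd_natCast.1 (hsI.dvd_of_dvd_pow h))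
      · exact hsb s hs hsM (dvd_neg.1 (hsI.dvd_of_dvd_pow h))

/-- **The parameters.** -/
theorem exists_parameters (h3 : 3 ≤ n) {N : ℕ} (hN : 0 < N) :
    ∃ a b : ℤ, Admissible n a b ∧ Irreducible ((trinom n a b).map (Int.castRingHom ℚ)) ∧
      (∀ s : ℕ, s.Prime → s ∣ N → ¬(s : ℤ) ∣ trinomDisc n a b) ∧
      ∀ m : ℕ, m % 2 = n % 2 → (realRoots (trinom n a b)).card = m → Odd ((n - m) / 2) := by
  obtain ⟨M, hM⟩ : ∃ M, M = n * (n - 1) * N := ⟨_, rfl⟩
  have hM0 : 0 < M := by
    rw [hM]; exact Nat.mul_pos (Nat.mul_pos (by omega) (by omega)) hN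
  obtain ⟨P, hP⟩ : ∃ P, P = ∏ s ∈ M.primeFactors.filter (fun s => ¬s ∣ n), s := ⟨_, rfl⟩
  have hPdvd : ∀ s : ℕ, s.Prime → s ∣ M → (s ∣ P ↔ ¬s ∣ n) := fun s hs hsM => by
    rw [hP, hs.prime.dvd_finsetProd_iff]
    refine ⟨fun ⟨q, hq, hd⟩ => ?_, fun h => ⟨s, Finset.mem_filter.2
      ⟨Nat.mem_primeFactors.2 ⟨hs, hsM, hM0.ne'⟩, h⟩, dvd_rfl⟩⟩
    obtain ⟨hq1, hq2⟩ := Finset.mem_filter.1 hq
    rwa [(Nat.prime_dvd_prime_iff_eq hs (Nat.prime_of_mem_primeFactors hq1)).1 hd]
  have hP0 : 0 < P := hP ▸ Finset.prod_pos fun q hq =>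
    (Nat.prime_of_mem_primeFactors (Finset.mem_filter.1 hq).1).pos
  obtain ⟨Q, hQ⟩ : ∃ Q : ℕ, Q = P * P := ⟨_, rfl⟩
  obtain ⟨E, hE⟩ : ∃ E : ℕ, E = 2 ^ n := ⟨_, rfl⟩
  obtain ⟨p, hp2, hp, hp1⟩ := Nat.forall_exists_prime_gt_and_modEq
    (Q + E + 2 * M + P + 9) (q := M) (a := 1) hM0.ne' (Nat.coprime_one_left M)
  rw [hM] at hp1
  have hnP : (P : ℤ) ^ 2 = (Q : ℤ) := by rw [hQ]; push_cast; ring
  clear hP hQ
  rcases (show n % 4 = 2 ∨ n % 4 = 3 ∨ n % 4 = 0 ∨ n % 4 = 1 by omega) with h4 | h4 | h4 | h4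
  · obtain ⟨hA, hD⟩ := admissible_of_congr (a := (P : ℤ)) h3 hp rfl hp1 (by omega)
      (by rw [Nat.abs_cast]; omega) fun s hs hsM => by
        rw [Int.natCast_dvd_natCast]; exact hPdvd s hs (hM ▸ hsM)
    refine ⟨_, _, hA, irreducible_trinom h3 hp rfl (by rw [Nat.abs_cast]; omega), hD,
      fun m hm hcard => ?_⟩
    have h := realRoots_eq_zero (a := (P : ℤ)) (b := (p : ℤ))
      (Nat.even_iff.2 (by omega : n % 2 = 0)) (by omega) (by omega) (by omega)
      (by rw [hnP]; omega)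
    rw [Nat.odd_iff]; omega
  · obtain ⟨hA, hD⟩ := admissible_of_congr (a := (P : ℤ)) h3 hp rfl hp1 (by omega)
      (by rw [Nat.abs_cast]; omega) fun s hs hsM => by
        rw [Int.natCast_dvd_natCast]; exact hPdvd s hs (hM ▸ hsM)
    refine ⟨_, _, hA, irreducible_trinom h3 hp rfl (by rw [Nat.abs_cast]; omega), hD,
      fun m hm hcard => ?_⟩
    have h := realRoots_le_one (a := (P : ℤ)) (b := (p : ℤ))
      (Nat.odd_iff.2 (by omega : n % 2 = 1)) (by omega) (by omega)
    rw [Nat.odd_iff]; omega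
  all_goals
    obtain ⟨A, hA', hA1, hA2⟩ : ∃ A : ℕ, A ≡ P [MOD M] ∧ A ≤ p - 2 ∧ p - 2 < A + M := by
      refine ⟨P + (p - 2 - P) / M * M, ?_, ?_, ?_⟩
      · unfold Nat.ModEq
        rw [Nat.add_mul_mod_self_right]
      · have := Nat.div_mul_le_self (p - 2 - P) M
        omega
      · have := Nat.lt_div_mul_add hM0 (a := p - 2 - P)
        omega
    obtain ⟨hA, hD⟩ := admissible_of_congr (a := -(A : ℤ)) h3 hp rfl hp1 (by omega)
      (by rw [abs_neg, Nat.abs_cast]; omega) fun s hs hsM => by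
        rw [dvd_neg, Int.natCast_dvd_natCast, ← hPdvd s hs (hM ▸ hsM)]
        exact (hA'.of_dvd (hM ▸ hsM)).dvd_iff dvd_rfl
    refine ⟨_, _, hA, irreducible_trinom h3 hp rfl (by rw [abs_neg, Nat.abs_cast]; omega), hD,
      fun m hm hcard => ?_⟩
    have h := two_le_realRoots (n := n) (a := -(A : ℤ)) (b := (p : ℤ)) (by omega) (by omega)
      (by
        have e : (E : ℤ) = (2 : ℤ) ^ n := by rw [hE]; push_cast; rfl
        rw [← e]; omega)
    have h' := realRoots_le (n := n) (a := -(A : ℤ)) (b := (p : ℤ)) (by omega)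
    rw [Nat.odd_iff]
  · rw [if_pos (Nat.even_iff.2 (by omega))] at h'
    omega
  · rw [if_neg (fun h5 => by rw [Nat.even_iff] at h5; omega)] at h'
    omega

/-- **The field.** -/
theorem exists_quadratic_unramified_alternating (h3 : 3 ≤ n) {N : ℕ} (hN : 0 < N) :
    ∃ (F L : Type) (_ : Field F) (_ : NumberField F) (_ : Field L) (_ : NumberField L)
      (_ : Algebra F L), IsGalois F L ∧ Nonempty ((L ≃ₐ[F] L) ≃* alternatingGroup (Fin n)) ∧
        Module.finrank ℚ F = 2 ∧ IsTotallyComplex F ∧ IsUnramifiedAtInfinitePlaces F L ∧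
        (∀ Q : Ideal (𝓞 L), Q.IsPrime → Q ≠ ⊥ → Q.ramificationIdx (𝓞 F) = 1) ∧
        IsCoprime (discr F) (N : ℤ) := by
  classical
  obtain ⟨a, b, hA, hirr, hD, hodd⟩ := exists_parameters h3 hN
  obtain ⟨f, hf⟩ : ∃ f, f = trinom n a b := ⟨_, rfl⟩
  rw [← hf] at hirr hodd
  have hmon : f.Monic := hf ▸ trinom_monic hA.two_le
  have hdeg : f.natDegree = n := hf ▸ natDegree_trinom hA.two_le
  have hmild : MildReductions f := hf ▸ mildReductions_trinom hA
  set fQ := f.map (Int.castRingHom ℚ)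
  have hcard : Fintype.card (fQ.rootSet Qb) = n := by
    rw [card_rootSet_eq_natDegree hirr.separable (IsAlgClosed.splits _), hmon.natDegree_map, hdeg]
  have : Nontrivial (fQ.rootSet Qb) := Fintype.one_lt_card_iff_nontrivial.1 (by omega)
  set ψ := VanDerWaerden.rootsAction (L := Qb) f
  have : FiniteDimensional ℚ (IntermediateField.adjoin ℚ (fQ.rootSet Qb)) :=
    IntermediateField.finiteDimensional_adjoin fun x _ => Algebra.IsIntegral.isIntegral x
  have hopen : IsOpen (ψ.ker : Set GQ) := Subgroup.isOpen_mono (fun σ hσ =>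
    MonoidHom.mem_ker.2 (Equiv.ext fun x => Subtype.ext
      ((IntermediateField.mem_fixingSubgroup_iff _ _).1 hσ x
        (IntermediateField.subset_adjoin ℚ _ x.2))))
    (IntermediateField.fixingSubgroup_isOpen (IntermediateField.adjoin ℚ (fQ.rootSet Qb)))
  have hconj : Equiv.Perm.sign (ψ complexConjugation) = -1 := by
    obtain ⟨hs, hm⟩ := sign_conjugation hmon hirr
    rw [hdeg] at hs hm
    exact hs.trans ((hodd _ hm rfl).neg_one_pow)
  obtain ⟨F, i1, L, i2, i3, i4, hfix, hgal, ⟨e⟩, hidx, hcx, hinf, hfin⟩ :=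
    exists_unramified_subfield ψ (rootsAction_surjective hmon hirr hmild) hopen
      (alternatingGroup (fQ.rootSet Qb))
      (fun q _ A _ σ hσ hσH => by
        rcases inertia_cases hmon hmild hσ with h | ⟨h, -⟩
        · exact h
        · exact absurd ((Equiv.Perm.mem_alternatingGroup.1 hσH).symm.trans h.sign_eq) (by decide))
      (fun g hg => by
        refine absurd (Equiv.Perm.mem_alternatingGroup.1 hg) ?_
        rw [map_mul, map_mul, map_mul, map_mul, map_inv, map_inv, hconj, mul_right_comm,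
          inv_mul_cancel, one_mul]
        decide)
  have hdeg2 : Module.finrank ℚ F = 2 := by rw [hidx, alternatingGroup.index_eq_two]
  have : IsGalois ℚ F := (InfiniteGalois.normal_iff_isGalois F).mp (hfix ▸ inferInstance)
  refine ⟨F, L, inferInstance, i1, i2, i3, i4, hgal, ⟨e.trans
    (Fintype.equivFinOfCardEq hcard).altCongrHom⟩, hdeg2, hcx, hinf, hfin, ?_⟩
  rw [Int.isCoprime_iff_nat_coprime, Int.natAbs_natCast]
  refine Nat.coprime_of_dvd fun s hs hsd hsN => ?_
  refine not_dvd_discr_of_inertia_le F hs (fun A hAs σ hσ => ?_) (Int.natCast_dvd.2 hsd)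
  rw [hfix, Subgroup.mem_comap]
  have h1 := inertia_eq_one hA hs (hD s hs hsN) hAs hσ
  subst hf
  rw [show ψ σ = 1 from h1]
  exact one_mem _

end FA.UchidaYamamura

end
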