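import Fermat.Agent.UchidaYamamura.Inertia
import Fermat.Agent.UnramifiedGalois.Selmer

/-!
# The parity of complex conjugation on the roots

For a monic irreducible polynomial of degree `n` with `m` real roots complex conjugation has the
sign `(-1) ^ ((n-m)/2)`; for the trinomials used `m` is `1, 0, 2, 3` as `n ≡ 3, 2, 0, 1 (mod 4)`.
-/

set_option autoImplicit false

noncomputable section

namespace FA.UchidaYamamura

open Polynomial Fermat.Agent Fermat.Agent.UnramifiedGalois
open scoped Polynomial

local notation "Qb" => AlgebraicClosure ℚ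
local notation "GQ" => AlgebraicClosure ℚ ≃ₐ[ℚ] AlgebraicClosure ℚ

/-- The real roots. -/
def realRoots (f : ℤ[X]) : Finset ℝ :=
  (f.map (Int.castRingHom ℝ)).roots.toFinset

variable {f : ℤ[X]}

theorem mem_realRoots (hmon : f.Monic) {r : ℝ} :
    r ∈ realRoots f ↔ (f.map (Int.castRingHom ℝ)).eval r = 0 := by
  rw [realRoots, Multiset.mem_toFinset, mem_roots (map_monic_ne_zero hmon), IsRoot.def]

/-- **The sign of complex conjugation.** -/
theorem sign_conjugation (hmon : f.Monic) (hirr : Irreducible (f.map (Int.castRingHom ℚ)))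
    [DecidableEq ((f.map (Int.castRingHom ℚ)).rootSet Qb)] :
    Equiv.Perm.sign (VanDerWaerden.rootsAction (L := Qb) f complexConjugation) =
        (-1) ^ ((f.natDegree - (realRoots f).card) / 2) ∧
      (realRoots f).card % 2 = f.natDegree % 2 := by
  classical
  set π := VanDerWaerden.rootsAction (L := Qb) f complexConjugation with hπ
  have h2 : π ^ 2 = 1 := by rw [hπ, ← map_pow, complexConjugation_sq, map_one]
  have hn : Fintype.card ((f.map (Int.castRingHom ℚ)).rootSet Qb) = f.natDegree := by
    rw [card_rootSet_eq_natDegree hirr.separable (IsAlgClosed.splits _), hmon.natDegree_map]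
  have hC : ∀ z : ℂ, aeval z (f.map (Int.castRingHom ℚ)) =
      (f.map (Int.castRingHom ℂ)).eval z := fun z => by
    rw [aeval_def, eval₂_eq_eval_map, Polynomial.map_map,
      RingHom.ext_int ((algebraMap ℚ ℂ).comp (Int.castRingHom ℚ)) (Int.castRingHom ℂ)]
  have hR : ∀ r : ℝ, (((f.map (Int.castRingHom ℝ)).eval r : ℝ) : ℂ) =
      (f.map (Int.castRingHom ℂ)).eval (r : ℂ) := fun r => by
    rw [← Complex.ofRealHom_eq_coe, ← Complex.ofRealHom_eq_coe r, ← eval_map_apply,
      Polynomial.map_map, RingHom.ext_int (Complex.ofRealHom.comp (Int.castRingHom ℝ))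
        (Int.castRingHom ℂ)]
  have hroot : ∀ z : (f.map (Int.castRingHom ℚ)).rootSet Qb,
      (f.map (Int.castRingHom ℂ)).eval (complexEmbedding (z : Qb)) = 0 := fun z => by
    rw [← hC, aeval_algHom_apply, (mem_rootSet.1 z.2).2, map_zero]
  have hfix : Fintype.card (Function.fixedPoints π) = (realRoots f).card := by
    rw [← Fintype.card_coe]
    refine Fintype.card_of_bijective (f := fun z : Function.fixedPoints π =>
      (⟨(complexEmbedding ((z.1 : _) : Qb)).re, (mem_realRoots hmon).2 ?_⟩ : realRoots f)) ?_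
    · have hz : starRingEnd ℂ (complexEmbedding (z.1 : Qb)) = complexEmbedding (z.1 : Qb) := by
        rw [← complexEmbedding_complexConjugation]
        exact congrArg (fun w : (f.map (Int.castRingHom ℚ)).rootSet Qb =>
          complexEmbedding (w : Qb)) z.2
      refine Complex.ofReal_injective ?_
      rw [hR, Complex.conj_eq_iff_re.1 hz, hroot, Complex.ofReal_zero]
    refine ⟨fun x y h => Subtype.ext (Subtype.ext ?_), fun r => ?_⟩
    · have key : ∀ z : Function.fixedPoints π,
          ((complexEmbedding (z.1 : Qb)).re : ℂ) = complexEmbedding (z.1 : Qb) := fun z =>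
        Complex.conj_eq_iff_re.1 (by
          rw [← complexEmbedding_complexConjugation]
          exact congrArg (fun w : (f.map (Int.castRingHom ℚ)).rootSet Qb =>
            complexEmbedding (w : Qb)) z.2)
      apply complexEmbedding.toRingHom.injective
      show complexEmbedding _ = complexEmbedding _
      rw [← key x, ← key y]
      exact congrArg (fun w : realRoots f => ((w : ℝ) : ℂ)) h
    · have hr : (r.1 : ℂ) ∈ (f.map (Int.castRingHom ℚ)).rootSet ℂ := mem_rootSet.2
        ⟨map_monic_ne_zero hmon, by rw [hC, ← hR, (mem_realRoots hmon).1 r.2, Complex.ofReal_zero]⟩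
      rw [← Polynomial.Splits.image_rootSet (IsAlgClosed.splits
        ((f.map (Int.castRingHom ℚ)).map (algebraMap ℚ Qb))) complexEmbedding] at hr
      obtain ⟨z, hz, hzr⟩ := hr
      refine ⟨⟨⟨z, hz⟩, Subtype.ext ?_⟩, Subtype.ext ?_⟩
      · show complexConjugation z = z
        apply complexEmbedding.toRingHom.injective
        show complexEmbedding _ = complexEmbedding _
        rw [complexEmbedding_complexConjugation, hzr, Complex.conj_ofReal]
      · show (complexEmbedding z).re = r.1
        rw [hzr, Complex.ofReal_re]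
  have hmod := Equiv.Perm.card_compl_support_modEq (p := 2) (n := 1) (σ := π) (by simpa using h2)
  have hcard : Fintype.card (Function.fixedPoints π) = π.supportᶜ.card := by
    rw [Equiv.Perm.card_fixedPoints, Equiv.Perm.sum_cycleType, Finset.card_compl]
  rw [← hcard, hfix, hn] at hmod
  refine ⟨?_, hmod⟩
  rw [Equiv.Perm.sign_of_pow_two_eq_one h2, hn, hfix]

section Trinomial

variable {n : ℕ} {a b : ℤ}

theorem eval_trinom (x : ℝ) :
    ((trinom n a b).map (Int.castRingHom ℝ)).eval x = x ^ n + a * x + b := by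
  rw [map_trinom]; simp

/-- Small `|a|`, `n` odd: one real root at most. -/
theorem realRoots_le_one (hn : Odd n) (h2 : 2 ≤ n) (ha : 0 < a) :
    (realRoots (trinom n a b)).card ≤ 1 := by
  refine Finset.card_le_one.2 fun x hx y hy => ?_
  rw [mem_realRoots (trinom_monic h2), eval_trinom] at hx hy
  have key : ∀ u v : ℝ, u < v → u ^ n + a * u + b < v ^ n + a * v + b := fun u v huv => by
    have h1 := hn.strictMono_pow (R := ℝ) huv
    have h2 := mul_lt_mul_of_pos_left huv (Int.cast_pos.2 ha : (0 : ℝ) < a)
    simp only at h1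
    linarith
  rcases lt_trichotomy x y with h | h | h
  · exact absurd (key x y h) (by rw [hx, hy]; exact lt_irrefl 0)
  · exact h
  · exact absurd (key y x h) (by rw [hx, hy]; exact lt_irrefl 0)

/-- Large `b`, `n` even: no real root. -/
theorem realRoots_eq_zero (hn : Even n) (h2 : 2 ≤ n) (ha : 0 < a) (hab : a < b)
    (hsq : a ^ 2 < 4 * b) : (realRoots (trinom n a b)).card = 0 := by
  refine Finset.card_eq_zero.2 (Finset.eq_empty_of_forall_notMem fun x hx => ?_)
  rw [mem_realRoots (trinom_monic h2), eval_trinom] at hx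
  have ha' : (0 : ℝ) < a := Int.cast_pos.2 ha
  have hab' : (a : ℝ) < b := Int.cast_lt.2 hab
  have hsq' : (a : ℝ) ^ 2 < 4 * b := by exact_mod_cast hsq
  obtain ⟨m, rfl⟩ := hn
  rw [← two_mul, pow_mul] at hx
  have h0 : (0 : ℝ) ≤ (x ^ 2) ^ m := by positivity
  rcases le_or_gt 1 (x ^ 2) with h | h
  · have h3 : x ^ 2 ≤ (x ^ 2) ^ m := le_self_pow₀ h (by omega)
    nlinarith [sq_nonneg (2 * x + a)]
  · have hx1 : -1 < x := by nlinarith
    nlinarith

/-- The roots of `n x ^ (n - 1) + a`. -/
theorem derivative_roots_le (h2 : 2 ≤ n) :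
    (derivative ((trinom n a b).map (Int.castRingHom ℝ))).roots.toFinset.card ≤
      if Even n then 1 else 2 := by
  have hd : ∀ x : ℝ, x ∈ (derivative ((trinom n a b).map (Int.castRingHom ℝ))).roots.toFinset →
      (n : ℝ) * x ^ (n - 1) + a = 0 := fun x hx => by
    have h := isRoot_of_mem_roots (Multiset.mem_toFinset.1 hx)
    rw [map_trinom, IsRoot.def] at h
    simpa [derivative_X_pow] using h
  have hn0 : (n : ℝ) ≠ 0 := Nat.cast_ne_zero.2 (by omega)
  set S := (derivative ((trinom n a b).map (Int.castRingHom ℝ))).roots.toFinset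
  have heq : ∀ x ∈ S, ∀ y ∈ S, x ^ (n - 1) = y ^ (n - 1) := fun x hx y hy =>
    mul_left_cancel₀ hn0 (by linarith [hd x hx, hd y hy])
  split_ifs with he
  · exact Finset.card_le_one.2 fun x hx y hy =>
      (Nat.Even.sub_odd (by omega) he odd_one).strictMono_pow.injective (heq x hx y hy)
  · rcases S.eq_empty_or_nonempty with h0 | ⟨x₀, hx₀⟩
    · simp [h0]
    refine (Finset.card_le_card (t := {x₀, -x₀}) fun x hx => ?_).trans Finset.card_le_two
    have h := heq x hx x₀ hx₀
    rw [pow_eq_pow_iff_cases] at h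
    rcases h with h | h | ⟨h, -⟩
    · omega
    · simp [h]
    · simp [h]

/-- Dominant `a < 0`: two real roots, three for odd `n`. -/
theorem two_le_realRoots (h2 : 2 ≤ n) (hb : 0 < b) (hab : 2 ^ n + b + 2 * a < 0) :
    2 ≤ (realRoots (trinom n a b)).card := by
  set p := (trinom n a b).map (Int.castRingHom ℝ)
  have hb' : (0 : ℝ) < b := Int.cast_pos.2 hb
  have hab' : (2 : ℝ) ^ n + b + 2 * a < 0 := by exact_mod_cast hab
  set M : ℝ := 2 + |(a : ℝ)|
  have hM : (2 : ℝ) ≤ M := le_add_of_nonneg_right (abs_nonneg _)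
  have hMval : 0 < M ^ n + a * M + b := by
    have h3 : M * M ≤ M ^ n := by
      rw [← sq]; exact pow_le_pow_right₀ (by linarith) h2
    nlinarith [neg_abs_le (a : ℝ), abs_nonneg (a : ℝ)]
  have hc : Continuous fun x : ℝ => x ^ n + a * x + b := by fun_prop
  obtain ⟨x, hx, hx0⟩ := intermediate_value_Ioo' (by norm_num : (0 : ℝ) ≤ 2) hc.continuousOn
    (show (0 : ℝ) ∈ Set.Ioo ((2 : ℝ) ^ n + a * 2 + b) ((0 : ℝ) ^ n + a * 0 + b) by
      rw [zero_pow (by omega)]
      exact ⟨by linarith, by linarith⟩)
  obtain ⟨y, hy, hy0⟩ := intermediate_value_Ioo hM hc.continuousOn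
    (show (0 : ℝ) ∈ Set.Ioo ((2 : ℝ) ^ n + a * 2 + b) (M ^ n + a * M + b) from
      ⟨by linarith, hMval⟩)
  calc 2 = ({x, y} : Finset ℝ).card := (Finset.card_pair (by linarith [hx.2, hy.1])).symm
    _ ≤ _ := Finset.card_le_card fun z hz => by
      rw [Finset.mem_insert, Finset.mem_singleton] at hz
      rw [mem_realRoots (trinom_monic h2), eval_trinom]
      rcases hz with rfl | rfl
      · exact hx0
      · exact hy0

/-- At most two real roots for even `n`, three for odd. -/
theorem realRoots_le (h2 : 2 ≤ n) :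
    (realRoots (trinom n a b)).card ≤ if Even n then 2 else 3 := by
  refine (card_roots_toFinset_le_derivative _).trans ?_
  have h := derivative_roots_le (a := a) (b := b) h2
  split_ifs at h ⊢ <;> omega

end Trinomial

end FA.UchidaYamamura

end
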