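import Fermat.Agent.UchidaYamamura.Trinomial
import Fermat.Agent.SelmerPolynomial.Galois

/-!
# Inertia on the roots of a monic polynomial with mild singular reductions

If modulo every prime a monic polynomial has at most one double root and no triple root, every
inertia element is trivial on the roots or a transposition, the latter only at a prime with a
double root; by Minkowski an irreducible such polynomial has the symmetric group.
-/

set_option autoImplicit false

noncomputable section

namespace FA.UchidaYamamura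

open Polynomial Fermat.Agent
open scoped Polynomial

local notation "Qb" => AlgebraicClosure ℚ
local notation "GQ" => AlgebraicClosure ℚ ≃ₐ[ℚ] AlgebraicClosure ℚ

/-- At most one double root and no triple root, in every field. -/
def MildReductions (f : ℤ[X]) : Prop :=
  ∀ (k : Type) [Field k],
    (∀ c d : k, (X - C c) ^ 2 ∣ f.map (Int.castRingHom k) →
      (X - C d) ^ 2 ∣ f.map (Int.castRingHom k) → c = d) ∧
    ∀ c : k, ¬(X - C c) ^ 3 ∣ f.map (Int.castRingHom k)

theorem mildReductions_trinom {n : ℕ} {a b : ℤ} (hA : Admissible n a b) :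
    MildReductions (trinom n a b) := fun k _ => by
  rw [map_trinom]
  exact ⟨fun _ _ => eq_of_sq_dvd hA, fun _ => not_pow_three_dvd hA⟩

variable {f : ℤ[X]}

/-- An inertia element is trivial, or a transposition with a double root below it. -/
theorem inertia_cases (hmon : f.Monic) (hf : MildReductions f) {A : ValuationSubring Qb} {σ : GQ}
    (hσ : σ ∈ A.inertiaSubgroupIn ℚ)
    [DecidableEq ((f.map (Int.castRingHom ℚ)).rootSet Qb)] :
    VanDerWaerden.rootsAction f σ = 1 ∨
      ((VanDerWaerden.rootsAction f σ).IsSwap ∧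
        ∃ c : IsLocalRing.ResidueField A, (X - C c) ^ 2 ∣
          f.map (Int.castRingHom (IsLocalRing.ResidueField A))) := by
  set π := VanDerWaerden.rootsAction (L := Qb) f σ with hπ
  have haeval : ∀ x : (f.map (Int.castRingHom ℚ)).rootSet Qb, aeval (x : Qb) f = 0 := fun x => by
    rw [← aeval_map_algebraMap ℚ, algebraMap_int_eq]
    exact (mem_rootSet.1 x.2).2
  let r : (f.map (Int.castRingHom ℚ)).rootSet Qb → FA.Deform.ZBar := fun x =>
    ⟨x, f, hmon, by rw [← aeval_def]; exact haeval x⟩
  let φ : FA.Deform.ZBar →+* IsLocalRing.ResidueField A :=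
    (IsLocalRing.residue A).comp (FA.Deform.zbarIncl A)
  have hφ : ∀ x, φ (r (π x)) = φ (r x) := by
    intro x
    rw [← sub_eq_zero, ← map_sub]
    refine (IsLocalRing.residue_eq_zero_iff _).2 ?_
    rw [← A.coe_mem_nonunits_iff, A.mem_nonunits_iff]
    exact (FA.Local.inert_of_mem_inertiaSubgroupIn A hσ).sub_lt _
      ((A.valuation_le_one_iff _).2 (FA.Deform.zbar_mem_valuationSubring A (r x)))
  have hdvd : ∀ (T : Finset ((f.map (Int.castRingHom ℚ)).rootSet Qb))
      (c : IsLocalRing.ResidueField A), (∀ x ∈ T, φ (r x) = c) →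
        (X - C c) ^ T.card ∣ f.map (Int.castRingHom (IsLocalRing.ResidueField A)) := by
    intro T c hT
    have hZ : (∏ x ∈ T, (X - C (r x))) ∣ f.map (algebraMap ℤ FA.Deform.ZBar) := by
      rw [← map_dvd_map FA.Deform.ZBar.val.toRingHom Subtype.val_injective
        (monic_prod_of_monic _ _ fun x _ => monic_X_sub_C _), Polynomial.map_prod,
        Polynomial.map_map]
      have hne : f.map ((FA.Deform.ZBar.val.toRingHom).comp (algebraMap ℤ FA.Deform.ZBar)) ≠ 0 :=
        map_monic_ne_zero hmon
      have := (Multiset.prod_X_sub_C_dvd_iff_le_roots hne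
        (T.val.map Subtype.val)).2 ((Multiset.le_iff_subset
          (T.nodup.map Subtype.val_injective)).2 fun y hy => by
            obtain ⟨x, -, rfl⟩ := Multiset.mem_map.1 hy
            rw [mem_roots hne, IsRoot, eval_map, RingHom.ext_int
              ((FA.Deform.ZBar.val.toRingHom).comp (algebraMap ℤ FA.Deform.ZBar)) (algebraMap ℤ Qb),
              ← aeval_def]
            exact haeval x)
      refine dvd_trans (dvd_of_eq ?_) this
      rw [Multiset.map_map, Finset.prod_eq_multiset_prod]
      refine congrArg Multiset.prod (Multiset.map_congr rfl fun x _ => ?_)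
      rw [Polynomial.map_sub, map_X, map_C]
      rfl
    have h := Polynomial.map_dvd φ hZ
    rw [Polynomial.map_prod, Polynomial.map_map,
      RingHom.ext_int (φ.comp (algebraMap ℤ FA.Deform.ZBar)) (Int.castRingHom _)] at h
    refine dvd_trans (dvd_of_eq ?_) h
    rw [← Finset.prod_const]
    exact Finset.prod_congr rfl fun x hx => by rw [Polynomial.map_sub, map_X, map_C, hT x hx]
  have hsq : ∀ x, π x ≠ x →
      (X - C (φ (r x))) ^ 2 ∣ f.map (Int.castRingHom (IsLocalRing.ResidueField A)) := by
    intro x hx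
    have h := hdvd {x, π x} (φ (r x)) fun z hz => by
      rcases Finset.mem_insert.1 hz with rfl | hz
      · rfl
      · rw [Finset.mem_singleton.1 hz, hφ]
    rwa [Finset.card_pair hx.symm] at h
  by_cases h1 : π = 1
  · exact Or.inl h1
  have hne0 : π.support.card ≠ 0 := by
    rwa [Ne, Finset.card_eq_zero, Equiv.Perm.support_eq_empty_iff]
  have hne1 := π.card_support_ne_one
  obtain ⟨x₀, hx₀⟩ := Finset.card_pos.1 (Nat.pos_of_ne_zero hne0)
  rw [Equiv.Perm.mem_support] at hx₀
  refine Or.inr ⟨Equiv.Perm.card_support_eq_two.1 ?_, _, hsq x₀ hx₀⟩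
  by_contra hne2
  exact (hf _).2 _ ((pow_dvd_pow _ (by omega)).trans (hdvd π.support (φ (r x₀)) fun x hx =>
    (hf _).1 _ _ (hsq x (Equiv.Perm.mem_support.1 hx)) (hsq x₀ hx₀)))

/-- The absolute Galois group induces every permutation of the roots. -/
theorem rootsAction_surjective (hmon : f.Monic) (hirr : Irreducible (f.map (Int.castRingHom ℚ)))
    (hf : MildReductions f) : Function.Surjective (VanDerWaerden.rootsAction (L := Qb) f) := by
  classical
  set fQ := f.map (Int.castRingHom ℚ)
  set ψ := VanDerWaerden.rootsAction (L := Qb) f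
  set S : Set (Equiv.Perm (fQ.rootSet Qb)) := {π | π.IsSwap ∧ π ∈ ψ.range}
  set N := Subgroup.closure S
  have hconj : ∀ (g : GQ) (π : Equiv.Perm (fQ.rootSet Qb)), π ∈ N → ψ g * π * (ψ g)⁻¹ ∈ N := by
    intro g π hπ
    refine (Subgroup.closure_le
      (K := N.comap (MulAut.conj (ψ g)).toMonoidHom)).2 ?_ hπ
    rintro _ ⟨⟨a, b, hab, rfl⟩, τ, hτ⟩
    refine Subgroup.subset_closure ⟨⟨ψ g a, ψ g b, (ψ g).injective.ne hab, ?_⟩,
      ⟨g * τ * g⁻¹, ?_⟩⟩
    · exact (Equiv.swap_apply_apply (ψ g) a b).symm
    · rw [map_mul, map_mul, map_inv, hτ]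
      rfl
  have : (N.comap ψ).Normal := ⟨fun h hh g => by
    rw [Subgroup.mem_comap, map_mul, map_mul, map_inv]
    exact hconj g _ hh⟩
  have : FiniteDimensional ℚ (IntermediateField.adjoin ℚ (fQ.rootSet Qb)) := by
    have := (rootSet_finite fQ Qb).to_subtype
    exact IntermediateField.finiteDimensional_adjoin fun x _ => Algebra.IsIntegral.isIntegral x
  have htop : N.comap ψ = ⊤ := FA.Local.eq_top_of_inertia_le _
    (IntermediateField.adjoin ℚ (fQ.rootSet Qb))
    (fun σ hσ => by
      rw [Subgroup.mem_comap, show ψ σ = 1 from Equiv.ext fun x => Subtype.ext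
        (hσ x (IntermediateField.subset_adjoin ℚ _ x.2))]
      exact one_mem N)
    (fun q hq => by
      obtain ⟨A, hA⟩ := FA.Deform.exists_liesOverPrime hq
      refine ⟨A, hA, fun σ hσ => ?_⟩
      rw [Subgroup.mem_comap]
      rcases inertia_cases hmon hf hσ with h | ⟨h, -⟩
      · rw [show ψ σ = 1 from h]
        exact one_mem N
      · exact Subgroup.subset_closure ⟨h, σ, rfl⟩)
  have hrange : N = ψ.range := le_antisymm ((Subgroup.closure_le _).2 fun π h => h.2) (by
    rintro _ ⟨σ, rfl⟩
    exact Subgroup.mem_comap.1 (htop ▸ Subgroup.mem_top σ))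
  have : MulAction.IsPretransitive N (fQ.rootSet Qb) := by
    refine ⟨fun x y => ?_⟩
    have hmin : aeval (y : Qb) (minpoly ℚ (x : Qb)) = 0 := by
      rw [← minpoly.eq_of_irreducible hirr (mem_rootSet.1 x.2).2, map_mul, (mem_rootSet.1 y.2).2,
        zero_mul]
    obtain ⟨σ, hσ⟩ := minpoly.exists_algEquiv_of_root'
      ⟨_, hirr.ne_zero, (mem_rootSet.1 x.2).2⟩ hmin
    exact ⟨⟨ψ σ, hrange.symm ▸ ⟨σ, rfl⟩⟩, Subtype.ext hσ⟩
  have hN : N = ⊤ := closure_of_isSwap_of_isPretransitive fun π h => h.1
  intro π
  exact MonoidHom.mem_range.1 (hrange ▸ hN.symm ▸ Subgroup.mem_top π)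

/-- The Galois group is the symmetric group. -/
theorem nonempty_gal_mild (hmon : f.Monic) (hirr : Irreducible (f.map (Int.castRingHom ℚ)))
    (hf : MildReductions f) :
    Nonempty ((f.map (Int.castRingHom ℚ)).Gal ≃* Equiv.Perm (Fin f.natDegree)) := by
  classical
  set fQ := f.map (Int.castRingHom ℚ)
  have : Fact ((fQ.map (algebraMap ℚ Qb)).Splits) := ⟨IsAlgClosed.splits _⟩
  have hcard : Fintype.card (fQ.rootSet Qb) = f.natDegree := by
    rw [card_rootSet_eq_natDegree hirr.separable (IsAlgClosed.splits _), hmon.natDegree_map]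
  have hsurj : Function.Surjective (Gal.galActionHom fQ Qb) := by
    intro π
    obtain ⟨σ, hσ⟩ := rootsAction_surjective hmon hirr hf π
    refine ⟨Gal.restrict fQ Qb σ, Equiv.ext fun x => Subtype.ext ?_⟩
    rw [Gal.galActionHom_restrict, ← hσ]
    rfl
  exact ⟨(MulEquiv.ofBijective (Gal.galActionHom fQ Qb)
    ⟨Gal.galActionHom_injective fQ Qb, hsurj⟩).trans
      (Fintype.equivFinOfCardEq hcard).permCongrHom⟩

/-- The residue field of a place over `q` has characteristic `q`. -/
theorem residue_natCast_eq_zero {A : ValuationSubring Qb} {q : ℕ} (hA : A.LiesOverPrime q) :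
    (q : IsLocalRing.ResidueField A) = 0 := by
  rw [← map_natCast (IsLocalRing.residue A) q, IsLocalRing.residue_eq_zero_iff,
    ← A.coe_mem_nonunits_iff]
  exact hA

/-- Away from the discriminant inertia fixes the roots. -/
theorem inertia_eq_one {n : ℕ} {a b : ℤ} (hA : Admissible n a b) {q : ℕ} (hq : q.Prime)
    (hqD : ¬(q : ℤ) ∣ trinomDisc n a b) {A : ValuationSubring Qb} (hAq : A.LiesOverPrime q)
    {σ : GQ} (hσ : σ ∈ A.inertiaSubgroupIn ℚ) :
    VanDerWaerden.rootsAction (trinom n a b) σ = 1 := by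
  classical
  rcases inertia_cases (trinom_monic hA.two_le) (mildReductions_trinom hA) hσ with h | ⟨-, c, hc⟩
  · exact h
  exfalso
  rw [map_trinom] at hc
  have hD := trinomDisc_eq_zero hA hc
  have hcop : IsCoprime (q : ℤ) (trinomDisc n a b) :=
    (Nat.prime_iff_prime_int.1 hq).coprime_iff_not_dvd.2 hqD
  rcases cast_eq_zero_of_isCoprime (k := IsLocalRing.ResidueField A) hcop with h | h
  · exact h (by rw [Int.cast_natCast]; exact residue_natCast_eq_zero hAq)
  · exact h hD

end FA.UchidaYamamura

end
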