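import Mathlib

/-!
# The trinomial `X ^ n + a X + b` modulo every prime

For `a` prime to `b`, `n` prime to `a` and `n - 1` prime to `b` the trinomial has in every field at
most one double root and no triple root; a double root makes
`D = n ^ n (-b) ^ (n - 1) + (n - 1) ^ (n - 1) a ^ n` vanish.
-/

set_option autoImplicit false

noncomputable section

open Polynomial

namespace FA.UchidaYamamura

/-- `X ^ n + a X + b`. -/
def trinom (n : ℕ) (a b : ℤ) : ℤ[X] :=
  X ^ n + C a * X + C b

/-- The discriminant up to sign. -/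
def trinomDisc (n : ℕ) (a b : ℤ) : ℤ :=
  (n : ℤ) ^ n * (-b) ^ (n - 1) + ((n : ℤ) - 1) ^ (n - 1) * a ^ n

/-- The arithmetical conditions. -/
structure Admissible (n : ℕ) (a b : ℤ) : Prop where
  two_le : 2 ≤ n
  coprime : IsCoprime a b
  coprime_left : IsCoprime (n : ℤ) a
  coprime_right : IsCoprime ((n : ℤ) - 1) b

variable {n : ℕ} {a b : ℤ}

theorem trinom_monic (hn : 2 ≤ n) : (trinom n a b).Monic := by
  rw [trinom, add_assoc]
  exact (monic_X_pow n).add_of_left (degree_linear_le.trans_lt (by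
    rw [degree_X_pow]
    exact_mod_cast hn))

theorem natDegree_trinom (hn : 2 ≤ n) : (trinom n a b).natDegree = n := by
  rw [trinom, add_assoc, natDegree_add_eq_left_of_natDegree_lt (natDegree_linear_le.trans_lt (by
    rw [natDegree_X_pow]; omega)), natDegree_X_pow]

theorem map_trinom {R : Type*} [CommRing R] (φ : ℤ →+* R) :
    (trinom n a b).map φ = X ^ n + C (a : R) * X + C (b : R) := by
  simp [trinom]

section Field

variable {k : Type*} [Field k] {c d : k}

/-- The two equations of a double root. -/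
theorem of_sq_dvd (h : (X - C c) ^ 2 ∣ (X ^ n + C (a : k) * X + C (b : k) : k[X])) :
    c ^ n + a * c + b = 0 ∧ (n : k) * c ^ (n - 1) + a = 0 := by
  have h1 := (dvd_pow_self _ two_ne_zero).trans h
  have h2 := pow_sub_one_dvd_derivative_of_pow_dvd h
  rw [show 2 - 1 = 1 from rfl, pow_one] at h2
  rw [dvd_iff_isRoot, IsRoot] at h1 h2
  simp only [eval_add, eval_pow, eval_X, eval_C, eval_mul, derivative_add, derivative_X_pow,
    derivative_X, derivative_mul, derivative_C, zero_mul, zero_add, add_zero, mul_one] at h1 h2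
  exact ⟨h1, h2⟩

theorem cast_eq_zero_of_isCoprime {u v : ℤ} (h : IsCoprime u v) : (u : k) ≠ 0 ∨ (v : k) ≠ 0 := by
  by_contra hc
  push Not at hc
  have h1 := h.map (Int.castRingHom k)
  simp only [eq_intCast, hc.1, hc.2, isCoprime_zero_left] at h1
  exact not_isUnit_zero h1

/-- The double root is determined and not zero. -/
theorem double_root_eq (hA : Admissible n a b)
    (h : (X - C c) ^ 2 ∣ (X ^ n + C (a : k) * X + C (b : k) : k[X])) :
    ((n : k) - 1) * a * c = -((n : k) * b) ∧ (a : k) ≠ 0 ∧ (b : k) ≠ 0 ∧ (n : k) ≠ 0 ∧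
      (n : k) - 1 ≠ 0 ∧ c ≠ 0 := by
  obtain ⟨h1, h2⟩ := of_sq_dvd h
  have e : c ^ (n - 1) * c = c ^ n := by
    rw [← pow_succ, Nat.sub_add_cancel (by linarith [hA.two_le] : 1 ≤ n)]
  have h3 : ((n : k) - 1) * a * c = -((n : k) * b) := by
    linear_combination (n : k) * h1 - c * h2 + (n : k) * e
  have hna := cast_eq_zero_of_isCoprime (k := k) hA.coprime_left
  have hnb := cast_eq_zero_of_isCoprime (k := k) hA.coprime_right
  have hab := cast_eq_zero_of_isCoprime (k := k) hA.coprime
  push_cast at hna hnb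
  have ha : (a : k) ≠ 0 := fun ha => by
    rw [ha, add_zero] at h2
    have hc := pow_eq_zero_iff'.1 ((mul_eq_zero.1 h2).resolve_left (hna.resolve_right (by simpa)))
    rw [hc.1, zero_pow (by linarith [hA.two_le] : n ≠ 0), ha, mul_zero, zero_add, zero_add] at h1
    exact (hab.resolve_left (by simpa)) h1
  have hn : (n : k) ≠ 0 := fun hn => ha (by rw [hn, zero_mul, zero_add] at h2; exact h2)
  have hn1 : (n : k) - 1 ≠ 0 := fun hn1 => by
    rw [hn1, zero_mul, zero_mul, eq_comm, neg_eq_zero, mul_eq_zero] at h3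
    exact (hnb.resolve_left (by simpa)) (h3.resolve_left hn)
  have hb : (b : k) ≠ 0 := fun hb => by
    rw [hb, mul_zero, neg_zero, mul_eq_zero] at h3
    have hc := h3.resolve_left (mul_ne_zero hn1 ha)
    rw [hc, zero_pow (by have := hA.two_le; omega), mul_zero, zero_add] at h2
    exact ha h2
  exact ⟨h3, ha, hb, hn, hn1, fun hc => hb ((mul_eq_zero.1 (neg_eq_zero.1
    (h3.symm.trans (by rw [hc, mul_zero])))).resolve_left hn)⟩

/-- There is at most one double root. -/
theorem eq_of_sq_dvd (hA : Admissible n a b)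
    (hc : (X - C c) ^ 2 ∣ (X ^ n + C (a : k) * X + C (b : k) : k[X]))
    (hd : (X - C d) ^ 2 ∣ (X ^ n + C (a : k) * X + C (b : k) : k[X])) : c = d := by
  obtain ⟨h1, ha, -, -, hn1, -⟩ := double_root_eq hA hc
  exact mul_left_cancel₀ (mul_ne_zero hn1 ha) (h1.trans (double_root_eq hA hd).1.symm)

/-- There is no triple root. -/
theorem not_pow_three_dvd (hA : Admissible n a b) :
    ¬(X - C c) ^ 3 ∣ (X ^ n + C (a : k) * X + C (b : k) : k[X]) := by
  intro h
  obtain ⟨-, -, -, hn, hn1, hc⟩ := double_root_eq hA ((pow_dvd_pow _ (by omega)).trans h)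
  have h3 := pow_sub_one_dvd_derivative_of_pow_dvd (pow_sub_one_dvd_derivative_of_pow_dvd h)
  rw [show 3 - 1 - 1 = 1 from rfl, pow_one, dvd_iff_isRoot, IsRoot] at h3
  simp only [derivative_add, derivative_X_pow, derivative_X, derivative_mul, derivative_C,
    zero_mul, zero_add, add_zero, mul_zero, eval_mul, eval_C, eval_pow, eval_X,
    derivative_one] at h3
  rw [Nat.cast_sub (by linarith [hA.two_le] : 1 ≤ n), Nat.cast_one] at h3
  exact (mul_ne_zero hn (mul_ne_zero hn1 (pow_ne_zero _ hc))) h3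

/-- A double root makes the discriminant vanish. -/
theorem trinomDisc_eq_zero (hA : Admissible n a b)
    (h : (X - C c) ^ 2 ∣ (X ^ n + C (a : k) * X + C (b : k) : k[X])) :
    (trinomDisc n a b : k) = 0 := by
  obtain ⟨-, h2⟩ := of_sq_dvd h
  obtain ⟨h3, -⟩ := double_root_eq hA h
  obtain ⟨m, rfl⟩ : ∃ m, n = m + 1 := ⟨n - 1, by have := hA.two_le; omega⟩
  have e : (((m + 1 : ℕ) : k) * c ^ m + a) * (((m + 1 : ℕ) : k) - 1) ^ m * (a : k) ^ m = 0 := by
    rw [Nat.add_sub_cancel] at h2
    rw [h2, zero_mul, zero_mul]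
  have e2 : ((((m + 1 : ℕ) : k) - 1) * a * c) ^ m = (-(((m + 1 : ℕ) : k) * b)) ^ m := by rw [h3]
  rw [trinomDisc, Nat.add_sub_cancel]
  push_cast at e e2 ⊢
  rw [mul_pow, mul_pow] at e2
  rw [neg_mul_eq_mul_neg, mul_pow] at e2
  linear_combination e - ((m : k) + 1) * e2

end Field

end FA.UchidaYamamura

end
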